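/-
S20 long shot, cusp / Fourier package (helper440).
Roots of unity `zeta w = exp (2πi/w)`, orthogonality, and the finite Fourier matrices on `Fin w`.
-/
import Mathlib.RingTheory.RootsOfUnity.Complex
import Mathlib.LinearAlgebra.Matrix.NonsingularInverse
import Mathlib.Algebra.Order.Field.GeomSum

set_option autoImplicit false
set_option linter.unusedSectionVars false

noncomputable section

namespace Fermat.Agent.S20.Cusp440

open Complex

/-- The standard primitive `w`-th root of unity. -/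
def zeta (w : ℕ) : ℂ := Complex.exp (2 * Real.pi * I / w)

lemma zeta_isPrimitiveRoot {w : ℕ} (hw : w ≠ 0) : IsPrimitiveRoot (zeta w) w :=
  Complex.isPrimitiveRoot_exp w hw

lemma zeta_ne_zero (w : ℕ) : zeta w ≠ 0 := Complex.exp_ne_zero _

lemma zeta_pow_self {w : ℕ} (hw : w ≠ 0) : zeta w ^ w = 1 :=
  (zeta_isPrimitiveRoot hw).pow_eq_one

lemma norm_zeta (w : ℕ) : ‖zeta w‖ = 1 := by
  rcases Nat.eq_zero_or_pos w with rfl | hw
  · simp [zeta]
  · have h := zeta_pow_self hw.ne'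
    have h2 : ‖zeta w‖ ^ w = 1 := by rw [← norm_pow, h, norm_one]
    exact (pow_eq_one_iff_of_nonneg (norm_nonneg _) hw.ne').mp h2

lemma norm_zeta_pow (w n : ℕ) : ‖zeta w ^ n‖ = 1 := by
  rw [norm_pow, norm_zeta, one_pow]

/-- Orthogonality of characters of `ℤ/w`. -/
lemma sum_zeta_pow_mul_inv {w : ℕ} {a b : ℕ} (ha : a < w) (hb : b < w) :
    ∑ l ∈ Finset.range w, zeta w ^ (a * l) * (zeta w ^ (b * l))⁻¹ =
      if a = b then (w : ℂ) else 0 := by
  have hw : w ≠ 0 := by omega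
  split_ifs with hab
  · subst hab
    have : ∀ l ∈ Finset.range w, zeta w ^ (a * l) * (zeta w ^ (a * l))⁻¹ = 1 := fun l _ =>
      mul_inv_cancel₀ (pow_ne_zero _ (zeta_ne_zero w))
    rw [Finset.sum_congr rfl this]
    simp
  · set r : ℂ := zeta w ^ a * (zeta w ^ b)⁻¹ with hr
    have hterm : ∀ l ∈ Finset.range w, zeta w ^ (a * l) * (zeta w ^ (b * l))⁻¹ = r ^ l := by
      intro l _
      rw [hr, mul_pow, inv_pow, ← pow_mul, ← pow_mul]
    rw [Finset.sum_congr rfl hterm]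
    have hr1 : r ≠ 1 := by
      intro h1
      apply hab
      have h2 : zeta w ^ a = zeta w ^ b := by
        have hb0 : zeta w ^ b ≠ 0 := pow_ne_zero _ (zeta_ne_zero w)
        rw [hr] at h1
        field_simp at h1
        exact h1
      exact (zeta_isPrimitiveRoot hw).pow_inj ha hb h2
    have hrw : r ^ w = 1 := by
      rw [hr, mul_pow, inv_pow, ← pow_mul, ← pow_mul, mul_comm a, mul_comm b, pow_mul, pow_mul,
        zeta_pow_self hw]
      simp
    rw [geom_sum_eq hr1, hrw, sub_self, zero_div]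

/-- The finite Fourier matrix on `Fin w`. -/
def dft (w : ℕ) : Matrix (Fin w) (Fin w) ℂ :=
  Matrix.of fun l n => zeta w ^ ((l : ℕ) * (n : ℕ))

/-- The inverse finite Fourier matrix on `Fin w`. -/
def dftInv (w : ℕ) : Matrix (Fin w) (Fin w) ℂ :=
  Matrix.of fun n l => (w : ℂ)⁻¹ * (zeta w ^ ((n : ℕ) * (l : ℕ)))⁻¹

lemma dft_apply (w : ℕ) (l n : Fin w) : dft w l n = zeta w ^ ((l : ℕ) * (n : ℕ)) := rfl

lemma dftInv_apply (w : ℕ) (n l : Fin w) :
    dftInv w n l = (w : ℂ)⁻¹ * (zeta w ^ ((n : ℕ) * (l : ℕ)))⁻¹ := rfl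

lemma dftInv_mul_dft (w : ℕ) : dftInv w * dft w = 1 := by
  ext n n'
  rw [Matrix.mul_apply]
  simp only [dft_apply, dftInv_apply]
  have hw : (w : ℂ) ≠ 0 := by
    have : 0 < w := Nat.lt_of_le_of_lt (Nat.zero_le _) n.2
    exact_mod_cast this.ne'
  have h := sum_zeta_pow_mul_inv (w := w) n'.2 n.2
  rw [Finset.sum_range] at h
  calc ∑ l : Fin w, (w : ℂ)⁻¹ * (zeta w ^ ((n : ℕ) * (l : ℕ)))⁻¹ * zeta w ^ ((l : ℕ) * (n' : ℕ))
      = (w : ℂ)⁻¹ * ∑ l : Fin w,
          zeta w ^ ((n' : ℕ) * (l : ℕ)) * (zeta w ^ ((n : ℕ) * (l : ℕ)))⁻¹ := by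
        rw [Finset.mul_sum]
        refine Finset.sum_congr rfl fun l _ => ?_
        rw [mul_comm (l : ℕ) (n' : ℕ)]
        ring
    _ = (1 : Matrix (Fin w) (Fin w) ℂ) n n' := by
        rw [h, Matrix.one_apply]
        by_cases hnn : n = n'
        · subst hnn
          simp [hw]
        · have : (n' : ℕ) ≠ (n : ℕ) := fun hh => hnn (Fin.ext hh.symm)
          simp [hnn, this]

lemma dft_mul_dftInv (w : ℕ) : dft w * dftInv w = 1 :=
  mul_eq_one_comm.mp (dftInv_mul_dft w)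

lemma det_dft_ne_zero (w : ℕ) : (dft w).det ≠ 0 := by
  intro h
  have := congrArg Matrix.det (dftInv_mul_dft w)
  rw [Matrix.det_mul, h, mul_zero, Matrix.det_one] at this
  exact zero_ne_one this

end Fermat.Agent.S20.Cusp440

end
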