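/-
S20 long shot, cusp / Fourier package (helper440).
Orbit bookkeeping for a permutation `σ` of a finite type `X`:
periods, base points, positions, and the index equivalence `X ≃ Σ b, Fin (per b)`.
-/
import Mathlib.GroupTheory.Perm.Cycle.Basic
import Mathlib.Dynamics.PeriodicPts.Lemmas
import Mathlib.Data.Fintype.Sigma
import Mathlib.Algebra.BigOperators.Group.Finset.Sigma

set_option autoImplicit false
set_option linter.unusedSectionVars false

noncomputable section

namespace Fermat.Agent.S20.Cusp440

open Function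

variable {X : Type*} [Fintype X] [DecidableEq X] (σ : Equiv.Perm X)

/-- The period of `x` under `σ` (length of its cycle). -/
def per (x : X) : ℕ := minimalPeriod σ x

lemma mem_periodicPts_perm (x : X) : x ∈ periodicPts σ := by
  refine mk_mem_periodicPts (orderOf_pos σ) ?_
  rw [IsPeriodicPt, Equiv.Perm.iterate_eq_pow, pow_orderOf_eq_one]
  exact isFixedPt_id x

lemma per_pos (x : X) : 0 < per σ x :=
  minimalPeriod_pos_of_mem_periodicPts (mem_periodicPts_perm σ x)

lemma pow_per_apply (x : X) : (σ ^ per σ x) x = x := by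
  have := isPeriodicPt_minimalPeriod σ x
  rwa [IsPeriodicPt, Equiv.Perm.iterate_eq_pow] at this

lemma per_pow_apply (x : X) (n : ℕ) : per σ ((σ ^ n) x) = per σ x := by
  have := minimalPeriod_apply_iterate (mem_periodicPts_perm σ x) n
  rwa [Equiv.Perm.iterate_eq_pow] at this

lemma per_apply (x : X) : per σ (σ x) = per σ x := by
  simpa using per_pow_apply σ x 1

lemma pow_mod_per_apply (x : X) (n : ℕ) : (σ ^ (n % per σ x)) x = (σ ^ n) x := by
  have := iterate_mod_minimalPeriod_eq (f := σ) (x := x) (n := n)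
  rwa [Equiv.Perm.iterate_eq_pow, Equiv.Perm.iterate_eq_pow] at this

lemma pow_apply_eq_pow_apply_iff {x : X} {m n : ℕ} (hm : m < per σ x) (hn : n < per σ x) :
    (σ ^ m) x = (σ ^ n) x ↔ m = n := by
  have := iterate_eq_iterate_iff_of_lt_minimalPeriod (f := σ) (x := x) hm hn
  rwa [Equiv.Perm.iterate_eq_pow, Equiv.Perm.iterate_eq_pow] at this

/-- The chosen base point of the cycle of `x`. -/
def base (x : X) : X :=
  Quotient.out (s := Equiv.Perm.SameCycle.setoid σ) (Quotient.mk (Equiv.Perm.SameCycle.setoid σ) x)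

lemma base_sameCycle (x : X) : σ.SameCycle (base σ x) x :=
  Quotient.mk_out (s := Equiv.Perm.SameCycle.setoid σ) x

lemma base_eq_of_sameCycle {x y : X} (h : σ.SameCycle x y) : base σ x = base σ y := by
  unfold base
  congr 1
  exact Quotient.sound (s := Equiv.Perm.SameCycle.setoid σ) h

lemma sameCycle_of_base_eq {x y : X} (h : base σ x = base σ y) : σ.SameCycle x y :=
  ((base_sameCycle σ x).symm.trans (h ▸ Equiv.Perm.SameCycle.refl σ _)).trans (base_sameCycle σ y)

lemma base_eq_iff {x y : X} : base σ x = base σ y ↔ σ.SameCycle x y :=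
  ⟨sameCycle_of_base_eq σ, base_eq_of_sameCycle σ⟩

@[simp] lemma base_base (x : X) : base σ (base σ x) = base σ x :=
  base_eq_of_sameCycle σ (base_sameCycle σ x)

@[simp] lemma base_pow_apply (x : X) (n : ℕ) : base σ ((σ ^ n) x) = base σ x :=
  base_eq_of_sameCycle σ ((Equiv.Perm.SameCycle.refl σ x).pow_right (n := n) |>.symm)

@[simp] lemma base_apply (x : X) : base σ (σ x) = base σ x := by
  simpa using base_pow_apply σ x 1

lemma per_base (x : X) : per σ (base σ x) = per σ x := by
  obtain ⟨i, hi⟩ := (base_sameCycle σ x).exists_nat_pow_eq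
  have := per_pow_apply σ (base σ x) i
  rw [hi] at this
  exact this.symm

lemma exists_pos (x : X) : ∃ n, n < per σ x ∧ (σ ^ n) (base σ x) = x := by
  obtain ⟨i, hi⟩ := (base_sameCycle σ x).exists_nat_pow_eq
  refine ⟨i % per σ (base σ x), ?_, ?_⟩
  · rw [per_base]; exact Nat.mod_lt _ (per_pos σ x)
  · rw [pow_mod_per_apply, hi]

/-- The position of `x` in its cycle, counted from the base point. -/
def pos (x : X) : ℕ := (exists_pos σ x).choose

lemma pos_lt_per (x : X) : pos σ x < per σ x := (exists_pos σ x).choose_spec.1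

lemma pos_lt_per_base (x : X) : pos σ x < per σ (base σ x) := by
  rw [per_base]; exact pos_lt_per σ x

@[simp] lemma pow_pos_base (x : X) : (σ ^ pos σ x) (base σ x) = x :=
  (exists_pos σ x).choose_spec.2

lemma pos_pow_base {b : X} (hb : base σ b = b) {n : ℕ} (hn : n < per σ b) :
    pos σ ((σ ^ n) b) = n := by
  have h1 : base σ ((σ ^ n) b) = b := by rw [base_pow_apply, hb]
  have h2 := pow_pos_base σ ((σ ^ n) b)
  rw [h1] at h2
  have h3 : pos σ ((σ ^ n) b) < per σ b := by
    have := pos_lt_per σ ((σ ^ n) b)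
    rwa [per_pow_apply] at this
  exact (pow_apply_eq_pow_apply_iff σ h3 hn).mp h2

lemma pos_base (x : X) : pos σ (base σ x) = 0 := by
  have := pos_pow_base σ (base_base σ x) (n := 0) (per_pos σ _)
  simpa using this

lemma eq_of_base_eq_of_pos_eq {x y : X} (hb : base σ x = base σ y) (hp : pos σ x = pos σ y) :
    x = y := by
  rw [← pow_pos_base σ x, ← pow_pos_base σ y, hb, hp]

/-- The type of base points (one per cycle of `σ`). -/
abbrev Base : Type _ := {b : X // base σ b = b}

instance : Fintype (Base σ) := Subtype.fintype _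

/-- The index type of "Fourier modes": a base point and a mode number below its period. -/
abbrev Mode : Type _ := Σ b : Base σ, Fin (per σ b.1)

/-- The index equivalence `(b, n) ↦ σ^n b`. -/
def modeEquiv : Mode σ ≃ X where
  toFun r := (σ ^ (r.2 : ℕ)) r.1.1
  invFun x := ⟨⟨base σ x, base_base σ x⟩, ⟨pos σ x, pos_lt_per_base σ x⟩⟩
  left_inv := by
    rintro ⟨⟨b, hb⟩, ⟨n, hn⟩⟩
    have h1 : base σ ((σ ^ n) b) = b := by rw [base_pow_apply, hb]
    have h2 : pos σ ((σ ^ n) b) = n := pos_pow_base σ hb hn
    simp only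
    refine Sigma.ext (Subtype.ext h1) ?_
    simp only
    refine (Fin.heq_ext_iff ?_).mpr h2
    simp only [h1]
  right_inv x := by simp

@[simp] lemma modeEquiv_apply (r : Mode σ) : modeEquiv σ r = (σ ^ (r.2 : ℕ)) r.1.1 := rfl

@[simp] lemma modeEquiv_symm_apply_fst (x : X) : ((modeEquiv σ).symm x).1.1 = base σ x := rfl

@[simp] lemma modeEquiv_symm_apply_snd (x : X) :
    (((modeEquiv σ).symm x).2 : ℕ) = pos σ x := rfl

/-- Number of cycles (orbits) of `σ`, fixed points included. -/
def numOrbits : ℕ := Fintype.card (Base σ)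

lemma card_eq_sum_per : Fintype.card X = ∑ b : Base σ, per σ b.1 := by
  rw [← Fintype.card_congr (modeEquiv σ), Fintype.card_sigma]
  simp

lemma sum_eq_sum_mode {M : Type*} [AddCommMonoid M] (g : X → M) :
    ∑ x, g x = ∑ b : Base σ, ∑ n : Fin (per σ b.1), g ((σ ^ (n : ℕ)) b.1) := by
  rw [← (modeEquiv σ).sum_comp, Fintype.sum_sigma]
  rfl

end Fermat.Agent.S20.Cusp440

end
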