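/-
S20 long shot, cusp / Fourier package (helper440).
Twisted averages of an analytic germ over the `w`-th roots of unity and their leading term.
-/
import Mathlib.NumberTheory.ModularForms.QExpansion
import Fermat.Agent.S20.Cusp440.DFT

set_option autoImplicit false
set_option linter.unusedSectionVars false

noncomputable section

namespace Fermat.Agent.S20.Cusp440

open Complex Filter Asymptotics Topology

/-- The twisted average of `F` over the `w`-th roots of unity: it picks out the part of the
Taylor expansion of `F` with exponents `≡ n mod w`. -/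
def twist (w n : ℕ) (F : ℂ → ℂ) (u : ℂ) : ℂ :=
  (w : ℂ)⁻¹ * ∑ l ∈ Finset.range w, (zeta w ^ (n * l))⁻¹ * F (zeta w ^ l * u)

lemma twist_add (w n : ℕ) (F G : ℂ → ℂ) (u : ℂ) :
    twist w n (fun y => F y + G y) u = twist w n F u + twist w n G u := by
  simp only [twist, mul_add, Finset.sum_add_distrib]

lemma twist_sub (w n : ℕ) (F G : ℂ → ℂ) (u : ℂ) :
    twist w n (fun y => F y - G y) u = twist w n F u - twist w n G u := by
  simp only [twist, mul_sub, Finset.sum_sub_distrib]

lemma twist_const_mul (w n : ℕ) (c : ℂ) (F : ℂ → ℂ) (u : ℂ) :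
    twist w n (fun y => c * F y) u = c * twist w n F u := by
  simp only [twist, Finset.mul_sum]
  refine Finset.sum_congr rfl fun l _ => ?_
  ring

lemma twist_sum {ι : Type*} (s : Finset ι) (w n : ℕ) (F : ι → ℂ → ℂ) (u : ℂ) :
    twist w n (fun y => ∑ i ∈ s, F i y) u = ∑ i ∈ s, twist w n (F i) u := by
  classical
  induction s using Finset.induction_on with
  | empty => simp [twist]
  | insert a s ha ih =>
    simp only [Finset.sum_insert ha]
    rw [twist_add, ih]

lemma twist_monomial {w n m : ℕ} (hn : n < w) (hm : m < w) (u : ℂ) :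
    twist w n (fun y => y ^ m) u = if m = n then u ^ m else 0 := by
  have hw : (w : ℂ) ≠ 0 := by
    have : 0 < w := by omega
    exact_mod_cast this.ne'
  have h := sum_zeta_pow_mul_inv (w := w) hm hn
  unfold twist
  have : ∑ l ∈ Finset.range w, (zeta w ^ (n * l))⁻¹ * (zeta w ^ l * u) ^ m =
      u ^ m * ∑ l ∈ Finset.range w, zeta w ^ (m * l) * (zeta w ^ (n * l))⁻¹ := by
    rw [Finset.mul_sum]
    refine Finset.sum_congr rfl fun l _ => ?_
    rw [mul_pow, ← pow_mul, mul_comm l m]
    ring
  rw [this, h]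
  split_ifs with hmn
  · field_simp
  · simp

/-- If `R(y) = O(‖y‖^k)` near `0` then so is its twisted average. -/
lemma twist_isBigO {w n k : ℕ} {R : ℂ → ℂ} (hR : R =O[𝓝 0] fun y => ‖y‖ ^ k) :
    (twist w n R) =O[𝓝 0] fun u => ‖u‖ ^ k := by
  unfold twist
  refine IsBigO.const_mul_left ?_ _
  have : (fun u => ∑ l ∈ Finset.range w, (zeta w ^ (n * l))⁻¹ * R (zeta w ^ l * u)) =
      ∑ l ∈ Finset.range w, fun u => (zeta w ^ (n * l))⁻¹ * R (zeta w ^ l * u) := by
    ext u
    simp
  rw [this]
  refine IsBigO.sum fun l _ => ?_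
  refine IsBigO.const_mul_left ?_ _
  have ht : Tendsto (fun u : ℂ => zeta w ^ l * u) (𝓝 0) (𝓝 0) := by
    have : Continuous fun u : ℂ => zeta w ^ l * u := by fun_prop
    simpa using this.tendsto 0
  have := hR.comp_tendsto ht
  refine this.congr_right fun u => ?_
  simp [norm_zeta]

/-- Leading term of the twisted average: for `n < w`, `twist w n F u / u ^ n` tends to the `n`-th
Taylor coefficient of `F` at `0`. -/
theorem tendsto_twist_div_pow {F : ℂ → ℂ} (hF : AnalyticAt ℂ F 0) {w n : ℕ} (hn : n < w) :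
    Tendsto (fun u => twist w n F u / u ^ n) (𝓝[≠] 0)
      (𝓝 ((n.factorial : ℂ)⁻¹ * iteratedDeriv n F 0)) := by
  set a : ℕ → ℂ := fun m => iteratedDeriv m F 0 / m.factorial with ha
  have hp := hF.hasFPowerSeriesAt
  have hbig := hp.isBigO_sub_partialSum_pow (n + 1)
  set P : ℂ → ℂ := fun y => ∑ m ∈ Finset.range (n + 1), a m * y ^ m with hP
  set R : ℂ → ℂ := fun y => F y - P y with hRdef
  have hR : R =O[𝓝 0] fun y => ‖y‖ ^ (n + 1) := by
    refine hbig.congr_left fun y => ?_
    simp only [hRdef, hP, zero_add, FormalMultilinearSeries.partialSum,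
      FormalMultilinearSeries.ofScalars_apply_eq, smul_eq_mul, ha]
  have hFPR : ∀ u, twist w n F u = twist w n P u + twist w n R u := by
    intro u
    rw [← twist_add]
    congr 1
    ext y
    simp [hRdef]
  have hPtw : ∀ u, twist w n P u = a n * u ^ n := by
    intro u
    rw [hP, twist_sum]
    have : ∀ m ∈ Finset.range (n + 1), twist w n (fun y => a m * y ^ m) u =
        if m = n then a n * u ^ n else 0 := by
      intro m hm
      have hm' : m < w := by
        have := Finset.mem_range.mp hm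
        omega
      rw [twist_const_mul, twist_monomial hn hm']
      split_ifs with h
      · subst h; rfl
      · simp
    rw [Finset.sum_congr rfl this, Finset.sum_ite_eq' ]
    simp
  have hRtw := twist_isBigO (w := w) (n := n) hR
  have hlim : Tendsto (fun u => twist w n R u / u ^ n) (𝓝[≠] 0) (𝓝 0) := by
    have h1 : (fun u => twist w n R u / u ^ n) =O[𝓝[≠] 0] fun u : ℂ => ‖u‖ := by
      have h2 := hRtw.mono (nhdsWithin_le_nhds (s := {0}ᶜ))
      rw [isBigO_iff] at h2 ⊢
      obtain ⟨c, hc⟩ := h2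
      refine ⟨c, ?_⟩
      filter_upwards [hc, self_mem_nhdsWithin] with u hu hu0
      have hu0' : u ≠ 0 := hu0
      have hpos : 0 < ‖u‖ ^ n := pow_pos (norm_pos_iff.mpr hu0') n
      rw [norm_div, norm_pow, div_le_iff₀ hpos]
      simp only [norm_pow, norm_norm] at hu
      calc ‖twist w n R u‖ ≤ c * ‖u‖ ^ (n + 1) := hu
        _ = c * ‖‖u‖‖ * ‖u‖ ^ n := by rw [norm_norm]; ring
    refine h1.trans_tendsto ?_
    have : Tendsto (fun u : ℂ => ‖u‖) (𝓝 0) (𝓝 0) := by
      simpa using (continuous_norm (E := ℂ)).tendsto 0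
    exact this.mono_left nhdsWithin_le_nhds
  have hmain : Tendsto (fun u => a n + twist w n R u / u ^ n) (𝓝[≠] 0) (𝓝 (a n + 0)) :=
    tendsto_const_nhds.add hlim
  have han : a n = (n.factorial : ℂ)⁻¹ * iteratedDeriv n F 0 := by
    simp only [ha]; ring
  rw [add_zero, han] at hmain
  refine hmain.congr' ?_
  filter_upwards [self_mem_nhdsWithin] with u hu0
  have hu0' : u ≠ 0 := hu0
  have hun : u ^ n ≠ 0 := pow_ne_zero _ hu0'
  rw [hFPR, hPtw, ← han]
  field_simp

/-- If the first `k` Taylor coefficients of `F` at `0` vanish then `F(u) = O(‖u‖^k)`. -/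
theorem isBigO_of_iteratedDeriv_eq_zero {F : ℂ → ℂ} (hF : AnalyticAt ℂ F 0) {k : ℕ}
    (h : ∀ m < k, iteratedDeriv m F 0 = 0) : F =O[𝓝 0] fun u => ‖u‖ ^ k := by
  have hp := hF.hasFPowerSeriesAt
  have hbig := hp.isBigO_sub_partialSum_pow k
  refine hbig.congr_left fun y => ?_
  simp only [zero_add, FormalMultilinearSeries.partialSum,
    FormalMultilinearSeries.ofScalars_apply_eq, smul_eq_mul]
  rw [Finset.sum_eq_zero, sub_zero]
  intro m hm
  rw [h m (Finset.mem_range.mp hm)]
  simp

end Fermat.Agent.S20.Cusp440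

end
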