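/-
S20 long shot, cusp / Fourier package (helper440).
`T`-equivariant families of bounded holomorphic functions on `ℍ`, their Fourier coefficients
along the orbits of the permutation, jets, and the kernel lemma.
-/
import Mathlib.NumberTheory.ModularForms.QExpansion
import Fermat.Agent.S20.Cusp440.Orbit
import Fermat.Agent.S20.Cusp440.Twist

set_option autoImplicit false
set_option linter.unusedSectionVars false

noncomputable section

namespace Fermat.Agent.S20.Cusp440

open UpperHalfPlane Filter Complex Function Topology Asymptotics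
open scoped Manifold

local notation "𝕢" => Periodic.qParam

variable {X : Type*} [Fintype X] [DecidableEq X]

/-- A family of bounded holomorphic functions on `ℍ`, indexed by a finite set `X`, which is
equivariant for the translation `z ↦ z + 1` and a permutation `σ` of `X`. -/
structure IsTFamily (σ : Equiv.Perm X) (φ : X → ℍ → ℂ) : Prop where
  holo : ∀ x, MDiff (φ x)
  bdd : ∀ x, IsBoundedAtImInfty (φ x)
  shift : ∀ x (z : ℍ), φ x ((1 : ℝ) +ᵥ z) = φ (σ x) z

namespace IsTFamily

variable {σ : Equiv.Perm X} {φ ψ : X → ℍ → ℂ}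

lemma shift_pow (h : IsTFamily σ φ) (n : ℕ) (x : X) (z : ℍ) :
    φ x ((n : ℝ) +ᵥ z) = φ ((σ ^ n) x) z := by
  induction n generalizing x with
  | zero => simp
  | succ n ih =>
    have : ((n + 1 : ℕ) : ℝ) +ᵥ z = (1 : ℝ) +ᵥ ((n : ℝ) +ᵥ z) := by
      rw [vadd_vadd]; push_cast; ring_nf
    rw [this, h.shift, ih, pow_succ, Equiv.Perm.mul_apply]

lemma shift_per (h : IsTFamily σ φ) (x : X) (z : ℍ) :
    φ x ((per σ x : ℝ) +ᵥ z) = φ x z := by
  rw [h.shift_pow, pow_per_apply]

lemma periodic (h : IsTFamily σ φ) (x : X) :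
    Periodic (φ x ∘ ofComplex) ((per σ x : ℝ) : ℂ) := by
  intro w
  by_cases! hw : 0 < im w
  · have hw' : 0 < im (w + ((per σ x : ℝ) : ℂ)) := by simp [hw]
    simp only [comp_apply, ofComplex_apply_of_im_pos hw', ofComplex_apply_of_im_pos hw]
    rw [← h.shift_per x ⟨w, hw⟩]
    congr 1
    ext
    simp [add_comm]
  · have hw' : im (w + ((per σ x : ℝ) : ℂ)) ≤ 0 := by simpa using hw
    simp only [comp_apply]
    rw [ofComplex_apply_eq_of_im_nonpos hw' hw]

lemma per_pos' (σ : Equiv.Perm X) (x : X) : (0 : ℝ) < per σ x := by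
  exact_mod_cast per_pos σ x

lemma analyticAt_cusp (h : IsTFamily σ φ) (x : X) :
    AnalyticAt ℂ (cuspFunction (per σ x) (φ x)) 0 :=
  analyticAt_cuspFunction_zero (per_pos' σ x) (h.periodic x) (h.holo x) (h.bdd x)

lemma eq_cusp (h : IsTFamily σ φ) (x : X) (z : ℍ) :
    cuspFunction (per σ x) (φ x) (𝕢 (per σ x) z) = φ x z :=
  eq_cuspFunction z (per_pos' σ x).ne' (h.periodic x)

lemma qParam_vadd (w : ℕ) (l : ℕ) (z : ℍ) :
    𝕢 (w : ℝ) (((l : ℝ) +ᵥ z : ℍ) : ℂ) = zeta w ^ l * 𝕢 (w : ℝ) (z : ℂ) := by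
  simp only [Periodic.qParam, zeta, ← Complex.exp_nat_mul, ← Complex.exp_add, coe_vadd]
  congr 1
  push_cast
  ring

lemma apply_pow_eq_cusp (h : IsTFamily σ φ) (x : X) (l : ℕ) (z : ℍ) :
    φ ((σ ^ l) x) z =
      cuspFunction (per σ x) (φ x) (zeta (per σ x) ^ l * 𝕢 (per σ x) z) := by
  rw [← h.shift_pow, ← h.eq_cusp x, qParam_vadd]

lemma add (h : IsTFamily σ φ) (h' : IsTFamily σ ψ) :
    IsTFamily σ (fun x z => φ x z + ψ x z) where
  holo x := (h.holo x).add (h'.holo x)
  bdd x := (h.bdd x).add (h'.bdd x)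
  shift x z := by rw [h.shift, h'.shift]

lemma const_mul (h : IsTFamily σ φ) (c : ℂ) :
    IsTFamily σ (fun x z => c * φ x z) where
  holo x := (h.holo x).const_smul c
  bdd x := (h.bdd x).const_mul_left c
  shift x z := by rw [h.shift]

lemma zero (σ : Equiv.Perm X) : IsTFamily σ (fun _ _ => (0 : ℂ)) where
  holo _ := mdifferentiable_const
  bdd _ := by
    simpa [IsBoundedAtImInfty, BoundedAtFilter] using
      (isBigO_zero (1 : ℍ → ℝ) atImInfty : (fun _ : ℍ => (0 : ℂ)) =O[atImInfty] (1 : ℍ → ℝ))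
  shift _ _ := rfl

lemma sum {ι : Type*} (s : Finset ι) {Φ : ι → X → ℍ → ℂ} (h : ∀ i ∈ s, IsTFamily σ (Φ i)) :
    IsTFamily σ (fun x z => ∑ i ∈ s, Φ i x z) := by
  classical
  induction s using Finset.induction_on with
  | empty => simpa using zero σ
  | insert a s ha ih =>
    simp only [Finset.sum_insert ha]
    exact (h a (Finset.mem_insert_self a s)).add
      (ih fun i hi => h i (Finset.mem_insert_of_mem hi))

end IsTFamily

/-- The `m`-th Fourier coefficient of `φ x` with respect to `q^{1/w}`, `w` the period of `x`. -/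
def coef (σ : Equiv.Perm X) (φ : X → ℍ → ℂ) (x : X) (m : ℕ) : ℂ :=
  (qExpansion (per σ x) (φ x)).coeff m

/-- The jet of a family at `∞`: the entry at `x` is the Fourier coefficient number `pos σ x`
at the base point of the cycle of `x`. -/
def jet (σ : Equiv.Perm X) (φ : X → ℍ → ℂ) (x : X) : ℂ :=
  coef σ φ (base σ x) (pos σ x)

lemma coef_eq (σ : Equiv.Perm X) (φ : X → ℍ → ℂ) (x : X) (m : ℕ) :
    coef σ φ x m = (m.factorial : ℂ)⁻¹ * iteratedDeriv m (cuspFunction (per σ x) (φ x)) 0 := by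
  rw [coef, qExpansion_coeff]

lemma jet_pow_base (σ : Equiv.Perm X) (φ : X → ℍ → ℂ) {b : X} (hb : base σ b = b) {n : ℕ}
    (hn : n < per σ b) : jet σ φ ((σ ^ n) b) = coef σ φ b n := by
  rw [jet, base_pow_apply, hb, pos_pow_base σ hb hn]

section linear

variable {σ : Equiv.Perm X} {φ ψ : X → ℍ → ℂ}

lemma coef_add (h : IsTFamily σ φ) (h' : IsTFamily σ ψ) (x : X) (m : ℕ) :
    coef σ (fun x z => φ x z + ψ x z) x m = coef σ φ x m + coef σ ψ x m := by
  simp only [coef]
  have := qExpansion_add (h := (per σ x : ℝ)) (h.analyticAt_cusp x) (h'.analyticAt_cusp x)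
  have e : (fun z => φ x z + ψ x z) = φ x + ψ x := rfl
  rw [e, this, map_add]

lemma coef_const_mul (h : IsTFamily σ φ) (c : ℂ) (x : X) (m : ℕ) :
    coef σ (fun x z => c * φ x z) x m = c * coef σ φ x m := by
  simp only [coef]
  have := qExpansion_smul (h := (per σ x : ℝ)) (h.analyticAt_cusp x) c
  have e : (fun z => c * φ x z) = c • φ x := rfl
  rw [e, this]
  simp

lemma coef_zero_family (σ : Equiv.Perm X) (x : X) (m : ℕ) :
    coef σ (fun _ _ => (0 : ℂ)) x m = 0 := by
  simp only [coef]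
  have e : (fun _ : ℍ => (0 : ℂ)) = 0 := rfl
  rw [e, qExpansion_zero]
  simp

lemma coef_sum {ι : Type*} (s : Finset ι) {Φ : ι → X → ℍ → ℂ}
    (h : ∀ i ∈ s, IsTFamily σ (Φ i)) (x : X) (m : ℕ) :
    coef σ (fun x z => ∑ i ∈ s, Φ i x z) x m = ∑ i ∈ s, coef σ (Φ i) x m := by
  classical
  induction s using Finset.induction_on with
  | empty => simpa using coef_zero_family σ x m
  | insert a s ha ih =>
    simp only [Finset.sum_insert ha]
    rw [coef_add (h a (Finset.mem_insert_self a s))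
      (IsTFamily.sum s fun i hi => h i (Finset.mem_insert_of_mem hi)),
      ih fun i hi => h i (Finset.mem_insert_of_mem hi)]

lemma jet_add (h : IsTFamily σ φ) (h' : IsTFamily σ ψ) :
    jet σ (fun x z => φ x z + ψ x z) = jet σ φ + jet σ ψ := by
  ext x; simp only [jet, Pi.add_apply]; exact coef_add h h' _ _

lemma jet_const_mul (h : IsTFamily σ φ) (c : ℂ) :
    jet σ (fun x z => c * φ x z) = c • jet σ φ := by
  ext x; simp only [jet, Pi.smul_apply, smul_eq_mul]; exact coef_const_mul h c _ _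

lemma jet_sum {ι : Type*} (s : Finset ι) {Φ : ι → X → ℍ → ℂ}
    (h : ∀ i ∈ s, IsTFamily σ (Φ i)) :
    jet σ (fun x z => ∑ i ∈ s, Φ i x z) = ∑ i ∈ s, jet σ (Φ i) := by
  ext x; simp only [jet, Finset.sum_apply]; exact coef_sum s h _ _

end linear

end Fermat.Agent.S20.Cusp440

end
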