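/-
S20 long shot, cusp / Fourier package (helper440).
Mode functions of a `T`-family, their limits at `i∞`, finite Fourier inversion, kernel lemma.
-/
import Fermat.Agent.S20.Cusp440.Family

set_option autoImplicit false
set_option linter.unusedSectionVars false

noncomputable section

namespace Fermat.Agent.S20.Cusp440

open UpperHalfPlane Filter Complex Function Topology Asymptotics
open scoped Manifold

local notation "𝕢" => Periodic.qParam

variable {X : Type*} [Fintype X] [DecidableEq X]

/-- The `n`-th mode function of the family at `x`: the part of `φ x` whose `q^{1/w}`-expansion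
has exponents `≡ n mod w`, `w = per σ x`. -/
def modeFn (σ : Equiv.Perm X) (φ : X → ℍ → ℂ) (x : X) (n : ℕ) (z : ℍ) : ℂ :=
  ((per σ x : ℕ) : ℂ)⁻¹ *
    ∑ l ∈ Finset.range (per σ x), (zeta (per σ x) ^ (n * l))⁻¹ * φ ((σ ^ l) x) z

variable {σ : Equiv.Perm X} {φ : X → ℍ → ℂ}

lemma modeFn_eq_twist (h : IsTFamily σ φ) (x : X) (n : ℕ) (z : ℍ) :
    modeFn σ φ x n z =
      twist (per σ x) n (cuspFunction (per σ x) (φ x)) (𝕢 (per σ x) z) := by
  unfold modeFn twist
  congr 1
  refine Finset.sum_congr rfl fun l _ => ?_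
  rw [h.apply_pow_eq_cusp]

lemma tendsto_qParam_atImInfty (w : ℕ) (hw : 0 < w) :
    Tendsto (fun z : ℍ => 𝕢 (w : ℝ) (z : ℂ)) atImInfty (𝓝[≠] 0) :=
  (Periodic.qParam_tendsto (by exact_mod_cast hw)).comp tendsto_coe_atImInfty

/-- The normalised mode function tends to the Fourier coefficient. -/
theorem tendsto_modeFn (h : IsTFamily σ φ) (x : X) {n : ℕ} (hn : n < per σ x) :
    Tendsto (fun z : ℍ => modeFn σ φ x n z / (𝕢 (per σ x) z) ^ n) atImInfty
      (𝓝 (coef σ φ x n)) := by
  have h1 := tendsto_twist_div_pow (h.analyticAt_cusp x) hn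
  have h2 := h1.comp (tendsto_qParam_atImInfty (per σ x) (per_pos σ x))
  rw [coef_eq]
  refine h2.congr fun z => ?_
  simp only [comp_apply, modeFn_eq_twist h]

/-- Finite Fourier inversion along a cycle. -/
theorem sum_zeta_mul_modeFn (σ : Equiv.Perm X) (φ : X → ℍ → ℂ) (x : X) {l : ℕ}
    (hl : l < per σ x) (z : ℍ) :
    ∑ n ∈ Finset.range (per σ x), zeta (per σ x) ^ (l * n) * modeFn σ φ x n z =
      φ ((σ ^ l) x) z := by
  set w := per σ x with hw
  have hw0 : (w : ℂ) ≠ 0 := by
    have := per_pos σ x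
    exact_mod_cast this.ne'
  unfold modeFn
  rw [← hw]
  have step : ∀ n ∈ Finset.range w,
      zeta w ^ (l * n) * ((w : ℂ)⁻¹ * ∑ l' ∈ Finset.range w,
        (zeta w ^ (n * l'))⁻¹ * φ ((σ ^ l') x) z) =
      ∑ l' ∈ Finset.range w, (w : ℂ)⁻¹ * φ ((σ ^ l') x) z *
        (zeta w ^ (l * n) * (zeta w ^ (l' * n))⁻¹) := by
    intro n _
    rw [Finset.mul_sum, Finset.mul_sum]
    refine Finset.sum_congr rfl fun l' _ => ?_
    rw [mul_comm n l']
    ring
  rw [Finset.sum_congr rfl step, Finset.sum_comm]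
  have step2 : ∀ l' ∈ Finset.range w,
      ∑ n ∈ Finset.range w, (w : ℂ)⁻¹ * φ ((σ ^ l') x) z *
        (zeta w ^ (l * n) * (zeta w ^ (l' * n))⁻¹) =
      if l' = l then φ ((σ ^ l') x) z else 0 := by
    intro l' hl'
    rw [← Finset.mul_sum, sum_zeta_pow_mul_inv hl (Finset.mem_range.mp hl')]
    by_cases hll : l = l'
    · subst hll
      simp only [if_true]
      field_simp
    · have : l' ≠ l := fun hh => hll hh.symm
      simp [hll, this]
  rw [Finset.sum_congr rfl step2, Finset.sum_ite_eq' ]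
  simp [Finset.mem_range.mpr hl]

lemma tendsto_vadd_atImInfty (t : ℝ) : Tendsto (fun z : ℍ => t +ᵥ z) atImInfty atImInfty := by
  rw [atImInfty, tendsto_comap_iff]
  have : (UpperHalfPlane.im ∘ fun z : ℍ => t +ᵥ z) = UpperHalfPlane.im := by
    ext z; simp [vadd_im]
  rw [this]
  exact tendsto_comap

/-- If the first `per σ x` Fourier coefficients of `φ x` vanish, then `φ x = O(exp (-2π Im z))`. -/
theorem isBigO_of_coef_eq_zero (h : IsTFamily σ φ) (x : X)
    (hx : ∀ m < per σ x, coef σ φ x m = 0) :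
    φ x =O[atImInfty] fun z : ℍ => Real.exp (-2 * Real.pi * z.im) := by
  set w := per σ x with hw
  have hwpos : 0 < w := per_pos σ x
  have hF := h.analyticAt_cusp x
  have hder : ∀ m < w, iteratedDeriv m (cuspFunction (w : ℝ) (φ x)) 0 = 0 := by
    intro m hm
    have := hx m hm
    rw [coef_eq] at this
    have hfac : ((m.factorial : ℕ) : ℂ) ≠ 0 := by exact_mod_cast m.factorial_ne_zero
    rcases mul_eq_zero.mp this with h0 | h0
    · exact absurd (inv_eq_zero.mp h0) hfac
    · exact h0
  have hO := isBigO_of_iteratedDeriv_eq_zero hF hder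
  have hq : Tendsto (fun z : ℍ => 𝕢 (w : ℝ) (z : ℂ)) atImInfty (𝓝 0) :=
    (tendsto_qParam_atImInfty w hwpos).mono_right nhdsWithin_le_nhds
  have hO2 := hO.comp_tendsto hq
  refine (hO2.congr_left fun z => ?_).congr_right fun z => ?_
  · simp only [comp_apply]
    exact h.eq_cusp x z
  · simp only [comp_apply, Periodic.norm_qParam, ← Real.exp_nat_mul, coe_im]
    congr 1
    have : (w : ℝ) ≠ 0 := by exact_mod_cast hwpos.ne'
    field_simp

/-- KERNEL LEMMA (C1): a family with vanishing jet decays like `exp (-2π Im z)` in every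
component. -/
theorem isBigO_of_jet_eq_zero (h : IsTFamily σ φ) (hjet : jet σ φ = 0) (x : X) :
    φ x =O[atImInfty] fun z : ℍ => Real.exp (-2 * Real.pi * z.im) := by
  have hb : base σ (base σ x) = base σ x := base_base σ x
  have hbase : φ (base σ x) =O[atImInfty] fun z : ℍ => Real.exp (-2 * Real.pi * z.im) := by
    refine isBigO_of_coef_eq_zero h (base σ x) fun m hm => ?_
    rw [← jet_pow_base σ φ hb hm, hjet]
    rfl
  have := hbase.comp_tendsto (tendsto_vadd_atImInfty (pos σ x : ℝ))
  refine (this.congr_left fun z => ?_).congr_right fun z => ?_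
  · simp only [comp_apply]
    rw [h.shift_pow, pow_pos_base]
  · simp only [comp_apply, vadd_im]

/-- Constant terms: `φ x` tends to `coef σ φ x 0` at `i∞`. -/
theorem tendsto_coef_zero (h : IsTFamily σ φ) (x : X) :
    Tendsto (φ x) atImInfty (𝓝 (coef σ φ x 0)) := by
  have hF := (h.analyticAt_cusp x).continuousAt
  have hq : Tendsto (fun z : ℍ => 𝕢 (per σ x : ℝ) (z : ℂ)) atImInfty (𝓝 0) :=
    (tendsto_qParam_atImInfty _ (per_pos σ x)).mono_right nhdsWithin_le_nhds
  have := hF.tendsto.comp hq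
  have hc : coef σ φ x 0 = cuspFunction (per σ x) (φ x) 0 := by
    rw [coef_eq]; simp
  rw [hc]
  refine this.congr fun z => ?_
  simp only [comp_apply]
  exact h.eq_cusp x z

lemma jet_of_base_eq (σ : Equiv.Perm X) (φ : X → ℍ → ℂ) {x : X} (hx : base σ x = x) :
    jet σ φ x = coef σ φ x 0 := by
  have hp : pos σ x = 0 := by
    have := pos_base σ x
    rwa [hx] at this
  rw [jet, hx, hp]

/-- (C0) A family is cuspidal (all components tend to `0` at `i∞`) iff its jet vanishes at all
base points. -/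
theorem isZeroAtImInfty_iff_jet (h : IsTFamily σ φ) :
    (∀ x, IsZeroAtImInfty (φ x)) ↔ ∀ x, base σ x = x → jet σ φ x = 0 := by
  constructor
  · intro hz x hx
    rw [jet_of_base_eq σ φ hx]
    exact tendsto_nhds_unique (tendsto_coef_zero h x) (hz x)
  · intro hj x
    have hb : base σ (base σ x) = base σ x := base_base σ x
    have h0 : coef σ φ (base σ x) 0 = 0 := by
      rw [← jet_of_base_eq σ φ hb]
      exact hj _ hb
    have h1 := tendsto_coef_zero h (base σ x)
    rw [h0] at h1
    have h2 := h1.comp (tendsto_vadd_atImInfty (pos σ x : ℝ))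
    refine h2.congr fun z => ?_
    simp only [comp_apply]
    rw [h.shift_pow, pow_pos_base]

end Fermat.Agent.S20.Cusp440

end
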