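/-
S20 long shot, cusp / Fourier package (helper440).
Factorisation of the fundamental matrix at `i∞`, determinant asymptotics, Cramer decay.
-/
import Mathlib.Topology.Instances.Matrix
import Fermat.Agent.S20.Cusp440.Mode

set_option autoImplicit false
set_option linter.unusedSectionVars false

noncomputable section

namespace Fermat.Agent.S20.Cusp440

open UpperHalfPlane Filter Complex Function Topology Asymptotics Matrix
open scoped Manifold

local notation "𝕢" => Periodic.qParam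

variable {X : Type*} [Fintype X] [DecidableEq X] (σ : Equiv.Perm X)

/-- The (block) finite Fourier matrix, indexed by modes. -/
def fourierV : Matrix (Mode σ) (Mode σ) ℂ :=
  Matrix.of fun r s =>
    if r.1 = s.1 then zeta (per σ r.1.1) ^ ((r.2 : ℕ) * (s.2 : ℕ)) else 0

/-- The inverse (block) finite Fourier matrix, indexed by modes. -/
def fourierU : Matrix (Mode σ) (Mode σ) ℂ :=
  Matrix.of fun r s =>
    if r.1 = s.1 then
      ((per σ r.1.1 : ℕ) : ℂ)⁻¹ * (zeta (per σ r.1.1) ^ ((r.2 : ℕ) * (s.2 : ℕ)))⁻¹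
    else 0

lemma fourierU_mul_fourierV : fourierU σ * fourierV σ = 1 := by
  ext ⟨b, n⟩ ⟨b', n'⟩
  rw [Matrix.mul_apply, Fintype.sum_sigma]
  simp only [fourierU, fourierV, Matrix.of_apply]
  by_cases hbb : b = b'
  · subst hbb
    rw [Finset.sum_eq_single b]
    · simp only [if_true]
      have hw : ((per σ b.1 : ℕ) : ℂ) ≠ 0 := by
        have := per_pos σ b.1
        exact_mod_cast this.ne'
      have h := sum_zeta_pow_mul_inv (w := per σ b.1) n'.2 n.2
      rw [Finset.sum_range] at h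
      have e1 : ∑ l : Fin (per σ b.1),
          ((per σ b.1 : ℕ) : ℂ)⁻¹ * (zeta (per σ b.1) ^ ((n : ℕ) * (l : ℕ)))⁻¹ *
            zeta (per σ b.1) ^ ((l : ℕ) * (n' : ℕ)) =
          ((per σ b.1 : ℕ) : ℂ)⁻¹ * ∑ l : Fin (per σ b.1),
            zeta (per σ b.1) ^ ((n' : ℕ) * (l : ℕ)) *
              (zeta (per σ b.1) ^ ((n : ℕ) * (l : ℕ)))⁻¹ := by
        rw [Finset.mul_sum]
        refine Finset.sum_congr rfl fun l _ => ?_
        rw [mul_comm (l : ℕ) (n' : ℕ)]
        ring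
      rw [e1, h, Matrix.one_apply]
      by_cases hnn : n = n'
      · subst hnn
        simp [hw]
      · have h1 : (n' : ℕ) ≠ (n : ℕ) := fun hh => hnn (Fin.ext hh.symm)
        have h2 : (⟨b, n⟩ : Mode σ) ≠ ⟨b, n'⟩ := by
          intro hh
          exact hnn (eq_of_heq (Sigma.mk.inj hh).2)
        simp [h1, h2]
    · intro c _ hc
      refine Finset.sum_eq_zero fun l _ => ?_
      simp [Ne.symm hc]
    · intro hb
      exact absurd (Finset.mem_univ b) hb
  · have h2 : (⟨b, n⟩ : Mode σ) ≠ ⟨b', n'⟩ := by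
      intro hh
      exact hbb (Sigma.mk.inj hh).1
    rw [Matrix.one_apply, if_neg h2]
    refine Finset.sum_eq_zero fun c _ => Finset.sum_eq_zero fun l _ => ?_
    by_cases hc : b = c
    · subst hc
      simp [hbb]
    · simp [hc]

lemma fourierV_mul_fourierU : fourierV σ * fourierU σ = 1 :=
  mul_eq_one_comm.mp (fourierU_mul_fourierV σ)

lemma det_fourierV_ne_zero : (fourierV σ).det ≠ 0 := by
  intro h
  have := congrArg Matrix.det (fourierU_mul_fourierV σ)
  rw [Matrix.det_mul, h, mul_zero, Matrix.det_one] at this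
  exact zero_ne_one this

/-- The diagonal of leading powers `q^{n/w}`. -/
def qDiag (z : ℍ) : Mode σ → ℂ := fun r => (𝕢 (per σ r.1.1) z) ^ (r.2 : ℕ)

lemma qDiag_ne_zero (z : ℍ) (r : Mode σ) : qDiag σ z r ≠ 0 :=
  pow_ne_zero _ (Periodic.qParam_ne_zero _)

/-- The fundamental matrix of `X`-many families: rows = components, columns = families. -/
def fundMat (φ : X → X → ℍ → ℂ) (z : ℍ) : Matrix X X ℂ := Matrix.of fun x j => φ j x z

/-- The leading-coefficient matrix at `i∞`. -/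
def jetMat (φ : X → X → ℍ → ℂ) : Matrix X X ℂ := Matrix.of fun x j => jet σ (φ j) x

/-- The normalised mode matrix; it tends to the (reindexed) jet matrix at `i∞`. -/
def modeMat (φ : X → X → ℍ → ℂ) (z : ℍ) : Matrix (Mode σ) (Mode σ) ℂ :=
  Matrix.of fun r s => modeFn σ (φ (modeEquiv σ s)) r.1.1 r.2 z / qDiag σ z r

variable {σ} {φ : X → X → ℍ → ℂ}

/-- FACTORISATION of the fundamental matrix. -/
theorem fundMat_submatrix_eq (z : ℍ) :
    (fundMat φ z).submatrix (modeEquiv σ) (modeEquiv σ) =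
      fourierV σ * Matrix.diagonal (qDiag σ z) * modeMat σ φ z := by
  ext ⟨b, l⟩ s
  rw [Matrix.mul_apply, Fintype.sum_sigma]
  simp only [Matrix.mul_diagonal, fourierV, Matrix.of_apply, modeMat, Matrix.submatrix_apply,
    fundMat]
  rw [Finset.sum_eq_single b]
  · simp only [if_true]
    have h := sum_zeta_mul_modeFn σ (φ (modeEquiv σ s)) b.1 l.2 z
    rw [Finset.sum_range] at h
    rw [show modeEquiv σ ⟨b, l⟩ = (σ ^ (l : ℕ)) b.1 from rfl, ← h]
    refine Finset.sum_congr rfl fun n _ => ?_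
    have hq := qDiag_ne_zero σ z ⟨b, n⟩
    simp only [qDiag] at hq ⊢
    field_simp
  · intro c _ hc
    refine Finset.sum_eq_zero fun n _ => ?_
    simp [Ne.symm hc]
  · intro hb
    exact absurd (Finset.mem_univ b) hb

lemma tendsto_modeMat (hφ : ∀ j, IsTFamily σ (φ j)) :
    Tendsto (modeMat σ φ) atImInfty
      (𝓝 ((jetMat σ φ).submatrix (modeEquiv σ) (modeEquiv σ))) := by
  refine (tendsto_pi_nhds (f := fun z r => (modeMat σ φ z r : Mode σ → ℂ))
    (g := fun r => ((jetMat σ φ).submatrix (modeEquiv σ) (modeEquiv σ) r : Mode σ → ℂ))).mpr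
    fun r => tendsto_pi_nhds.mpr fun s => ?_
  obtain ⟨⟨b, hb⟩, ⟨n, hn⟩⟩ := r
  have h := tendsto_modeFn (hφ (modeEquiv σ s)) b hn
  simp only [Matrix.submatrix_apply, jetMat, Matrix.of_apply, modeEquiv_apply]
  rw [jet_pow_base σ _ hb hn]
  exact h

lemma qParam_pow_per (w : ℕ) (hw : 0 < w) (z : ℍ) :
    (𝕢 (w : ℝ) (z : ℂ)) ^ w = 𝕢 (1 : ℝ) (z : ℂ) := by
  simp only [Periodic.qParam, ← Complex.exp_nat_mul]
  congr 1
  have : (w : ℂ) ≠ 0 := by exact_mod_cast hw.ne'
  push_cast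
  field_simp

lemma sum_per_sub_one : ∑ b : Base σ, (per σ b.1 - 1) = Fintype.card X - numOrbits σ := by
  have h1 : ∑ b : Base σ, (per σ b.1 - 1) + ∑ _b : Base σ, 1 = ∑ b : Base σ, per σ b.1 := by
    rw [← Finset.sum_add_distrib]
    refine Finset.sum_congr rfl fun b _ => ?_
    have := per_pos σ b.1
    omega
  have h2 : ∑ _b : Base σ, 1 = numOrbits σ := by simp [numOrbits]
  rw [card_eq_sum_per σ, ← h1, h2]
  omega

theorem prod_qDiag_sq (z : ℍ) :
    (∏ r, qDiag σ z r) ^ 2 = (𝕢 (1 : ℝ) (z : ℂ)) ^ (Fintype.card X - numOrbits σ) := by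
  rw [Fintype.prod_sigma, ← sum_per_sub_one, ← Finset.prod_pow_eq_pow_sum, ← Finset.prod_pow]
  refine Finset.prod_congr rfl fun b _ => ?_
  simp only [qDiag]
  rw [Finset.prod_pow_eq_pow_sum, ← pow_mul]
  have hsum : (∑ n : Fin (per σ b.1), (n : ℕ)) * 2 = per σ b.1 * (per σ b.1 - 1) := by
    rw [Fin.sum_univ_eq_sum_range (fun n => n) (per σ b.1)]
    exact Finset.sum_range_id_mul_two _
  rw [hsum, pow_mul, qParam_pow_per _ (per_pos σ b.1)]

/-- Exact determinant formula. -/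
theorem det_fundMat_sq (z : ℍ) :
    (fundMat φ z).det ^ 2 = (fourierV σ).det ^ 2 *
      (𝕢 (1 : ℝ) (z : ℂ)) ^ (Fintype.card X - numOrbits σ) * (modeMat σ φ z).det ^ 2 := by
  have h := congrArg Matrix.det (fundMat_submatrix_eq (σ := σ) (φ := φ) z)
  rw [Matrix.det_submatrix_equiv_self, Matrix.det_mul, Matrix.det_mul, Matrix.det_diagonal] at h
  rw [h, mul_pow, mul_pow, prod_qDiag_sq]

/-- (C2) DETERMINANT ASYMPTOTICS. -/
theorem tendsto_det_sq (hφ : ∀ j, IsTFamily σ (φ j)) :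
    Tendsto (fun z : ℍ => (fundMat φ z).det ^ 2 /
        (𝕢 (1 : ℝ) (z : ℂ)) ^ (Fintype.card X - numOrbits σ)) atImInfty
      (𝓝 ((fourierV σ).det ^ 2 * (jetMat σ φ).det ^ 2)) := by
  have h1 : Tendsto (fun z => (modeMat σ φ z).det) atImInfty
      (𝓝 ((jetMat σ φ).submatrix (modeEquiv σ) (modeEquiv σ)).det) :=
    ((continuous_id.matrix_det).tendsto _).comp (tendsto_modeMat hφ)
  rw [Matrix.det_submatrix_equiv_self] at h1
  have h2 := (h1.pow 2).const_mul ((fourierV σ).det ^ 2)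
  refine h2.congr fun z => ?_
  rw [det_fundMat_sq (σ := σ) z]
  have : (𝕢 (1 : ℝ) (z : ℂ)) ^ (Fintype.card X - numOrbits σ) ≠ 0 :=
    pow_ne_zero _ (Periodic.qParam_ne_zero _)
  field_simp

/-- If the jet matrix is invertible, the fundamental matrix is invertible near `i∞`. -/
theorem eventually_det_fundMat_ne_zero (hφ : ∀ j, IsTFamily σ (φ j))
    (hdet : (jetMat σ φ).det ≠ 0) : ∀ᶠ z in atImInfty, (fundMat φ z).det ≠ 0 := by
  have h := tendsto_det_sq hφ
  have hne : (fourierV σ).det ^ 2 * (jetMat σ φ).det ^ 2 ≠ 0 :=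
    mul_ne_zero (pow_ne_zero _ (det_fourierV_ne_zero σ)) (pow_ne_zero _ hdet)
  filter_upwards [h.eventually_ne hne] with z hz
  intro h0
  apply hz
  rw [h0]
  simp


lemma tendsto_inv_modeMat (hφ : ∀ j, IsTFamily σ (φ j)) (hdet : (jetMat σ φ).det ≠ 0) :
    Tendsto (fun z => (modeMat σ φ z)⁻¹) atImInfty
      (𝓝 (((jetMat σ φ).submatrix (modeEquiv σ) (modeEquiv σ))⁻¹)) := by
  have hdet' : ((jetMat σ φ).submatrix (modeEquiv σ) (modeEquiv σ)).det ≠ 0 := by
    rwa [Matrix.det_submatrix_equiv_self]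
  have h1 : Tendsto (fun z => (modeMat σ φ z).det) atImInfty
      (𝓝 ((jetMat σ φ).submatrix (modeEquiv σ) (modeEquiv σ)).det) :=
    ((continuous_id.matrix_det).tendsto _).comp (tendsto_modeMat hφ)
  have h2 : Tendsto (fun z => (modeMat σ φ z).adjugate) atImInfty
      (𝓝 ((jetMat σ φ).submatrix (modeEquiv σ) (modeEquiv σ)).adjugate) :=
    ((continuous_id.matrix_adjugate).tendsto _).comp (tendsto_modeMat hφ)
  have h3 := (h1.inv₀ hdet').smul h2
  simp only [Matrix.inv_def, Ring.inverse_eq_inv']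
  exact h3

lemma inv_diagonal_qDiag (z : ℍ) :
    (Matrix.diagonal (qDiag σ z))⁻¹ = Matrix.diagonal fun r => (qDiag σ z r)⁻¹ := by
  refine Matrix.inv_eq_right_inv ?_
  rw [Matrix.diagonal_mul_diagonal]
  have : (fun r => qDiag σ z r * (qDiag σ z r)⁻¹) = fun _ => (1 : ℂ) := by
    ext r
    exact mul_inv_cancel₀ (qDiag_ne_zero σ z r)
  rw [this, Matrix.diagonal_one]

lemma tendsto_qParam_div_qDiag (r : Mode σ) :
    Tendsto (fun z : ℍ => 𝕢 (1 : ℝ) (z : ℂ) * (qDiag σ z r)⁻¹) atImInfty (𝓝 0) := by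
  obtain ⟨b, ⟨n, hn⟩⟩ := r
  have hq : Tendsto (fun z : ℍ => 𝕢 (per σ b.1 : ℝ) (z : ℂ)) atImInfty (𝓝 0) :=
    (tendsto_qParam_atImInfty _ (per_pos σ b.1)).mono_right nhdsWithin_le_nhds
  have h1 := hq.pow (per σ b.1 - n)
  have h0 : (0 : ℂ) ^ (per σ b.1 - n) = 0 := by
    apply zero_pow
    omega
  rw [h0] at h1
  refine h1.congr fun z => ?_
  simp only [qDiag]
  rw [← qParam_pow_per (per σ b.1) (per_pos σ b.1) z]
  have hne : (𝕢 (per σ b.1 : ℝ) (z : ℂ)) ^ n ≠ 0 := pow_ne_zero _ (Periodic.qParam_ne_zero _)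
  rw [eq_mul_inv_iff_mul_eq₀ hne, ← pow_add]
  congr 1
  omega

/-- (C3) CRAMER DECAY: if the jet matrix is invertible then `q · Φ⁻¹ → 0` entrywise at `i∞`. -/
theorem tendsto_cramer (hφ : ∀ j, IsTFamily σ (φ j)) (hdet : (jetMat σ φ).det ≠ 0) (j x : X) :
    Tendsto (fun z : ℍ => 𝕢 (1 : ℝ) (z : ℂ) * (fundMat φ z)⁻¹ j x) atImInfty (𝓝 0) := by
  set e := modeEquiv σ with he
  set A₀ := ((jetMat σ φ).submatrix e e)⁻¹ with hA₀
  have hinv : ∀ z : ℍ, (fundMat φ z)⁻¹ j x =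
      ∑ r : Mode σ, (modeMat σ φ z)⁻¹ (e.symm j) r * (qDiag σ z r)⁻¹ *
        (fourierV σ)⁻¹ r (e.symm x) := by
    intro z
    have h1 : ((fundMat φ z).submatrix e e)⁻¹ (e.symm j) (e.symm x) = (fundMat φ z)⁻¹ j x := by
      rw [Matrix.inv_submatrix_equiv]
      simp
    rw [← h1, fundMat_submatrix_eq (σ := σ) z, Matrix.mul_inv_rev, Matrix.mul_inv_rev,
      inv_diagonal_qDiag, ← Matrix.mul_assoc, Matrix.mul_apply]
    refine Finset.sum_congr rfl fun r _ => ?_
    rw [Matrix.mul_diagonal]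
  have hterm : ∀ r : Mode σ, Tendsto (fun z : ℍ => (modeMat σ φ z)⁻¹ (e.symm j) r *
      (𝕢 (1 : ℝ) (z : ℂ) * (qDiag σ z r)⁻¹) * (fourierV σ)⁻¹ r (e.symm x)) atImInfty (𝓝 0) := by
    intro r
    have h1 : Tendsto (fun z : ℍ => (modeMat σ φ z)⁻¹ (e.symm j) r) atImInfty
        (𝓝 (A₀ (e.symm j) r)) := by
      have := tendsto_inv_modeMat hφ hdet
      have h2 := (tendsto_pi_nhds (f := fun z r => ((modeMat σ φ z)⁻¹ r : Mode σ → ℂ))
        (g := fun r => (A₀ r : Mode σ → ℂ))).mp this (e.symm j)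
      exact tendsto_pi_nhds.mp h2 r
    have h2 := (h1.mul (tendsto_qParam_div_qDiag (σ := σ) r)).mul_const
      ((fourierV σ)⁻¹ r (e.symm x))
    simpa using h2
  have hsum := tendsto_finsetSum (Finset.univ : Finset (Mode σ)) fun r _ => hterm r
  simp only [Finset.sum_const_zero] at hsum
  refine hsum.congr fun z => ?_
  rw [hinv z, Finset.mul_sum]
  refine Finset.sum_congr rfl fun r _ => ?_
  ring

end Fermat.Agent.S20.Cusp440

end
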